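import Fermat.Agent.S14.H134.Cyclo

/-!
# S14 / GALOIS block (helper134): the cocycle of an admissible extension

`V` is a 2-dimensional `𝔽_p`-representation of `G_ℚ`, `C` a line fixed pointwise, `V/C`
cyclotomic.  Choosing `c₀ ∈ C`, `v₀ ∉ C` we get `b : G_ℚ → 𝔽_p` with
`σ v₀ = χ(σ) v₀ + b(σ) c₀`, satisfying `b(στ) = χ(τ) b(σ) + b(τ)`.
-/

set_option autoImplicit false
set_option linter.style.haveILetI false
set_option linter.unusedSectionVars false

namespace Fermat.Agent.S14.H134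

open ExtCitation

variable {p : ℕ} [hp : Fact p.Prime]

/-- Abstract cocycle data: `b (σ τ) = χ(τ) b(σ) + b(τ)`. -/
def IsCocycle (p : ℕ) [Fact p.Prime] (b : GQ → ZMod p) : Prop :=
  ∀ σ τ : GQ, b (σ * τ) = (cycloExp p τ : ZMod p) * b σ + b τ

namespace IsCocycle

variable {b : GQ → ZMod p} (hb : IsCocycle p b)
include hb

theorem map_one : b 1 = 0 := by
  have h := hb 1 1
  rw [mul_one, cycloExp_one, one_mul] at h
  exact left_eq_add.mp h

theorem map_inv (σ : GQ) : (cycloExp p σ : ZMod p) * b σ⁻¹ + b σ = 0 := by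
  have h := hb σ⁻¹ σ
  rw [inv_mul_cancel, hb.map_one] at h
  exact h.symm

theorem map_mul_of_right {σ τ : GQ} (hτ : ((cycloExp p τ : ℕ) : ZMod p) = 1) :
    b (σ * τ) = b σ + b τ := by
  rw [hb σ τ, hτ, one_mul]

theorem map_pow {τ : GQ} (hτ : ((cycloExp p τ : ℕ) : ZMod p) = 1) (k : ℕ) :
    b (τ ^ k) = (k : ZMod p) * b τ := by
  induction k with
  | zero => simp [hb.map_one]
  | succ k ih =>
    rw [pow_succ, hb.map_mul_of_right hτ, ih]
    push_cast
    ring

theorem map_conj (σ : GQ) {h : GQ} (hh : ((cycloExp p h : ℕ) : ZMod p) = 1) :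
    b (σ⁻¹ * h * σ) = (cycloExp p σ : ZMod p) * b h := by
  rw [hb (σ⁻¹ * h) σ, hb σ⁻¹ h, hh, one_mul, mul_add, add_assoc, add_comm (_ * b h),
    ← add_assoc, hb.map_inv σ, zero_add]

end IsCocycle

theorem cycloExp_conj (σ h : GQ) :
    ((cycloExp p (σ⁻¹ * h * σ) : ℕ) : ZMod p) = (cycloExp p h : ZMod p) := by
  rw [cycloExp_cast, cycloExp_cast, chiU_mul, chiU_mul, chiU_inv]
  simp

theorem cycloExp_pow_of_eq_one {τ : GQ} (hτ : ((cycloExp p τ : ℕ) : ZMod p) = 1) (k : ℕ) :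
    ((cycloExp p (τ ^ k) : ℕ) : ZMod p) = 1 := by
  induction k with
  | zero => simpa using cycloExp_one p
  | succ k ih => rw [pow_succ, cycloExp_mul, ih, hτ, one_mul]

/-- The subgroup `{σ | χ(σ) = 1 ∧ b(σ) = 0}`. -/
def kerSub (b : GQ → ZMod p) (hb : IsCocycle p b) : Subgroup GQ where
  carrier := {σ | ((cycloExp p σ : ℕ) : ZMod p) = 1 ∧ b σ = 0}
  mul_mem' := by
    rintro σ τ ⟨h1, h2⟩ ⟨h3, h4⟩
    refine ⟨by rw [cycloExp_mul, h1, h3, one_mul], ?_⟩
    rw [hb σ τ, h2, h4, mul_zero, add_zero]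
  one_mem' := ⟨cycloExp_one p, hb.map_one⟩
  inv_mem' := by
    rintro σ ⟨h1, h2⟩
    have hinv : ((cycloExp p σ⁻¹ : ℕ) : ZMod p) = 1 := by
      have := cycloExp_mul p σ⁻¹ σ
      rw [inv_mul_cancel, cycloExp_one, h1, mul_one] at this
      exact this.symm
    refine ⟨hinv, ?_⟩
    have := hb.map_inv σ
    rw [h1, one_mul, h2, add_zero] at this
    exact this

theorem mem_kerSub {b : GQ → ZMod p} {hb : IsCocycle p b} {σ : GQ} :
    σ ∈ kerSub b hb ↔ ((cycloExp p σ : ℕ) : ZMod p) = 1 ∧ b σ = 0 := Iff.rfl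

theorem conj_mem_kerSub {b : GQ → ZMod p} {hb : IsCocycle p b} (σ : GQ) {n : GQ}
    (hn : n ∈ kerSub b hb) : σ⁻¹ * n * σ ∈ kerSub b hb := by
  obtain ⟨h1, h2⟩ := hn
  refine ⟨by rw [cycloExp_conj, h1], ?_⟩
  rw [hb.map_conj σ h1, h2, mul_zero]

section Module

variable {V : Type} [AddCommGroup V] [Module (ZMod p) V]
  [DistribMulAction GQ V] [SMulCommClass GQ (ZMod p) V]
  {C : Submodule (ZMod p) V}

/-- Every element of `C` is a multiple of a nonzero `c₀ ∈ C`. -/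
theorem exists_smul_eq_of_mem (hcard : Nat.card C = p) {c₀ : V} (hc₀ : c₀ ∈ C) (hne : c₀ ≠ 0)
    {c : V} (hc : c ∈ C) : ∃ a : ZMod p, c = a • c₀ := by
  haveI : NeZero p := ⟨hp.out.ne_zero⟩
  haveI : Finite C := Nat.finite_of_card_ne_zero (by rw [hcard]; exact hp.out.ne_zero)
  let f : ZMod p → C := fun a => ⟨a • c₀, C.smul_mem a hc₀⟩
  have hinj : Function.Injective f := by
    intro a a' h
    have h' : a • c₀ = a' • c₀ := congrArg Subtype.val h
    have h0 : (a - a') • c₀ = 0 := by rw [sub_smul, h', sub_self]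
    rcases smul_eq_zero.mp h0 with h1 | h1
    · exact sub_eq_zero.mp h1
    · exact absurd h1 hne
  have hbij : Function.Bijective f := by
    rw [Nat.bijective_iff_injective_and_card]
    exact ⟨hinj, by rw [Nat.card_zmod, hcard]⟩
  obtain ⟨a, ha⟩ := hbij.2 ⟨c, hc⟩
  exact ⟨a, (congrArg Subtype.val ha).symm⟩

/-- There is a nonzero element in `C` and an element outside `C`. -/
theorem exists_basis_vectors (hadm : IsAdmissibleExtension p V C) :
    ∃ c₀ v₀ : V, c₀ ∈ C ∧ c₀ ≠ 0 ∧ v₀ ∉ C := by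
  haveI : NeZero p := ⟨hp.out.ne_zero⟩
  haveI : Finite C := Nat.finite_of_card_ne_zero (by rw [hadm.card_sub]; exact hp.out.ne_zero)
  haveI : Finite V := Nat.finite_of_card_ne_zero (by
    rw [hadm.card_total]; exact pow_ne_zero _ hp.out.ne_zero)
  have h1 : ∃ c : C, c ≠ 0 := by
    by_contra hcon
    push Not at hcon
    haveI : Subsingleton C := ⟨fun a b => by rw [hcon a, hcon b]⟩
    have := Nat.card_of_subsingleton (0 : C)
    rw [hadm.card_sub] at this
    exact hp.out.one_lt.ne' this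
  obtain ⟨⟨c₀, hc₀⟩, hne⟩ := h1
  have h2 : ∃ v₀ : V, v₀ ∉ C := by
    by_contra hcon
    push Not at hcon
    have htop : C = ⊤ := eq_top_iff.mpr fun v _ => hcon v
    have hc := hadm.card_sub
    rw [htop] at hc
    have : Nat.card (⊤ : Submodule (ZMod p) V) = Nat.card V :=
      Nat.card_congr (Submodule.topEquiv (R := ZMod p) (M := V)).toEquiv
    rw [this, hadm.card_total] at hc
    have h2 : p ^ 2 = p ^ 1 := by rw [hc, pow_one]
    have := Nat.pow_right_injective hp.out.two_le h2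
    omega
  obtain ⟨v₀, hv₀⟩ := h2
  exact ⟨c₀, v₀, hc₀, fun h => hne (Subtype.ext h), hv₀⟩

/-- The cocycle attached to `(c₀, v₀)`. -/
theorem exists_cocycle (hadm : IsAdmissibleExtension p V C) {c₀ v₀ : V}
    (hc₀ : c₀ ∈ C) (hne : c₀ ≠ 0) :
    ∃ b : GQ → ZMod p, IsCocycle p b ∧
      ∀ σ : GQ, σ • v₀ = (cycloExp p σ : ZMod p) • v₀ + b σ • c₀ := by
  have hex : ∀ σ : GQ, ∃ a : ZMod p, σ • v₀ - (cycloExp p σ : ZMod p) • v₀ = a • c₀ :=
    fun σ => exists_smul_eq_of_mem hadm.card_sub hc₀ hne (hadm.cyclo_quot σ v₀)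
  choose b hb using hex
  have hb' : ∀ σ : GQ, σ • v₀ = (cycloExp p σ : ZMod p) • v₀ + b σ • c₀ := by
    intro σ
    rw [← hb σ]
    abel
  refine ⟨b, ?_, hb'⟩
  intro σ τ
  have hfix : ∀ σ : GQ, σ • c₀ = c₀ := fun σ => hadm.fixed_sub σ c₀ hc₀
  have h1 : (σ * τ) • v₀ = (cycloExp p (σ * τ) : ZMod p) • v₀ + b (σ * τ) • c₀ := hb' (σ * τ)
  have h2 : (σ * τ) • v₀ = (cycloExp p (σ * τ) : ZMod p) • v₀ +
      ((cycloExp p τ : ZMod p) * b σ + b τ) • c₀ := by
    rw [mul_smul, hb' τ, smul_add, smul_comm σ _ v₀, smul_comm σ _ c₀, hfix, hb' σ, smul_add,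
      smul_smul, smul_smul, cycloExp_mul, add_smul, mul_comm (cycloExp p σ : ZMod p)]
    abel
  have h3 : b (σ * τ) • c₀ = ((cycloExp p τ : ZMod p) * b σ + b τ) • c₀ := by
    have := h1.symm.trans h2
    exact add_left_cancel this
  have h0 : (b (σ * τ) - ((cycloExp p τ : ZMod p) * b σ + b τ)) • c₀ = 0 := by
    rw [sub_smul, h3, sub_self]
  rcases smul_eq_zero.mp h0 with h | h
  · exact sub_eq_zero.mp h
  · exact absurd h hne

/-- If `σ` fixes `v₀ ∉ C` then `χ(σ) = 1` and `b(σ) = 0`. -/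
theorem cyclo_eq_one_and_b_eq_zero_of_fix {c₀ v₀ : V} (hc₀ : c₀ ∈ C) (hne : c₀ ≠ 0)
    (hv₀ : v₀ ∉ C) {b : GQ → ZMod p}
    (hb : ∀ σ : GQ, σ • v₀ = (cycloExp p σ : ZMod p) • v₀ + b σ • c₀) {σ : GQ}
    (hσ : σ • v₀ = v₀) : ((cycloExp p σ : ℕ) : ZMod p) = 1 ∧ b σ = 0 := by
  have h1 : (1 - (cycloExp p σ : ZMod p)) • v₀ = b σ • c₀ := by
    have := hb σ
    rw [hσ] at this
    rw [sub_smul, one_smul]
    nth_rw 1 [this]
    abel
  have hχ : ((cycloExp p σ : ℕ) : ZMod p) = 1 := by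
    by_contra hcon
    have hu : (1 - (cycloExp p σ : ZMod p)) ≠ 0 := fun h => hcon (sub_eq_zero.mp h).symm
    apply hv₀
    have : v₀ = (1 - (cycloExp p σ : ZMod p))⁻¹ • (b σ • c₀) := by
      rw [← h1, smul_smul, inv_mul_cancel₀ hu, one_smul]
    rw [this]
    exact C.smul_mem _ (C.smul_mem _ hc₀)
  refine ⟨hχ, ?_⟩
  rw [hχ, sub_self, zero_smul] at h1
  rcases smul_eq_zero.mp h1.symm with h | h
  · exact h
  · exact absurd h hne

/-- A line spanned by a vector outside `C` is a complement of `C`. -/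
theorem isCompl_span (hadm : IsAdmissibleExtension p V C) {v₁ : V} (hv₁ : v₁ ∉ C) :
    IsCompl C (Submodule.span (ZMod p) {v₁}) := by
  haveI : NeZero p := ⟨hp.out.ne_zero⟩
  haveI : Finite V := Nat.finite_of_card_ne_zero (by
    rw [hadm.card_total]; exact pow_ne_zero _ hp.out.ne_zero)
  haveI : Module.Finite (ZMod p) V := Module.Finite.of_finite
  have hdisj : Disjoint C (Submodule.span (ZMod p) {v₁}) := by
    rw [Submodule.disjoint_def]
    intro x hxC hx
    obtain ⟨a, rfl⟩ := Submodule.mem_span_singleton.mp hx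
    by_cases ha : a = 0
    · rw [ha, zero_smul]
    · exfalso
      apply hv₁
      have : v₁ = a⁻¹ • (a • v₁) := by rw [smul_smul, inv_mul_cancel₀ ha, one_smul]
      rw [this]
      exact C.smul_mem _ hxC
  refine ⟨hdisj, ?_⟩
  rw [codisjoint_iff]
  -- count
  have hV : Module.finrank (ZMod p) V = 2 := by
    have h := Module.natCard_eq_pow_finrank (K := ZMod p) (V := V)
    rw [hadm.card_total, Nat.card_zmod] at h
    exact (Nat.pow_right_injective hp.out.two_le h).symm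
  have hC : Module.finrank (ZMod p) C = 1 := by
    have h := Module.natCard_eq_pow_finrank (K := ZMod p) (V := C)
    rw [hadm.card_sub, Nat.card_zmod] at h
    have h' : p ^ 1 = p ^ Module.finrank (ZMod p) C := by rw [pow_one]; exact h
    exact (Nat.pow_right_injective hp.out.two_le h').symm
  have hv₁0 : v₁ ≠ 0 := fun h => hv₁ (h ▸ C.zero_mem)
  have hS : Module.finrank (ZMod p) (Submodule.span (ZMod p) {v₁}) = 1 :=
    finrank_span_singleton hv₁0
  have hsum := Submodule.finrank_sup_add_finrank_inf_eq C (Submodule.span (ZMod p) {v₁})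
  rw [hdisj.eq_bot, finrank_bot, add_zero, hC, hS] at hsum
  apply Submodule.eq_top_of_finrank_eq
  rw [hsum, hV]

end Module

end Fermat.Agent.S14.H134
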