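import Mathlib
import Fermat.Prelude.Def_ExtCitation_AdmissibleExtension_v2

/-!
# S14 / GALOIS block (helper134): cyclotomic exponent facts

Basic facts on `ExtCitation.cycloExp` (the mod `p` cyclotomic character of `G_ℚ`,
as a natural number in `[0, p)`).
-/

set_option autoImplicit false
set_option linter.style.haveILetI false

namespace Fermat.Agent.S14.H134

open ExtCitation

/-- The absolute Galois group of `ℚ`. -/
abbrev GQ : Type := AlgebraicClosure ℚ ≃ₐ[ℚ] AlgebraicClosure ℚ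

/-- `ℚ̄/ℚ` is Galois (the instance is not found automatically because of the two
`ℚ`-algebra structures). -/
theorem isGalois_Qbar : IsGalois ℚ (AlgebraicClosure ℚ) := by
  haveI : Algebra.IsAlgebraic ℚ (AlgebraicClosure ℚ) := AlgebraicClosure.isAlgebraic ℚ
  haveI : IsAlgClosure ℚ (AlgebraicClosure ℚ) := ⟨inferInstance, inferInstance⟩
  haveI : Normal ℚ (AlgebraicClosure ℚ) := IsAlgClosure.normal ℚ (AlgebraicClosure ℚ)
  exact isGalois_iff.mpr ⟨inferInstance, inferInstance⟩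

variable (p : ℕ) [hp : Fact p.Prime]

/-- The cyclotomic character as a unit of `ZMod p`. -/
noncomputable def chiU (σ : GQ) : (ZMod p)ˣ :=
  haveI : NeZero p := ⟨hp.out.ne_zero⟩
  modularCyclotomicCharacter (AlgebraicClosure ℚ) (card_rootsOfUnity_eq_self p)
      (σ : AlgebraicClosure ℚ ≃+* AlgebraicClosure ℚ)

theorem cycloExp_eq (σ : GQ) : cycloExp p σ = ((chiU p σ : (ZMod p)ˣ) : ZMod p).val := rfl

theorem cycloExp_cast (σ : GQ) : ((cycloExp p σ : ℕ) : ZMod p) = (chiU p σ : ZMod p) := by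
  haveI : NeZero p := ⟨hp.out.ne_zero⟩
  rw [cycloExp_eq, ZMod.natCast_val, ZMod.cast_id]

theorem chiU_mul (σ τ : GQ) : chiU p (σ * τ) = chiU p σ * chiU p τ := by
  haveI : NeZero p := ⟨hp.out.ne_zero⟩
  unfold chiU
  rw [← map_mul]
  rfl

theorem chiU_one : chiU p (1 : GQ) = 1 := by
  haveI : NeZero p := ⟨hp.out.ne_zero⟩
  unfold chiU
  exact map_one _

theorem chiU_inv (σ : GQ) : chiU p σ⁻¹ = (chiU p σ)⁻¹ := by
  apply eq_inv_of_mul_eq_one_left
  rw [← chiU_mul, inv_mul_cancel, chiU_one]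

theorem cycloExp_mul (σ τ : GQ) :
    ((cycloExp p (σ * τ) : ℕ) : ZMod p) = (cycloExp p σ : ZMod p) * (cycloExp p τ : ZMod p) := by
  rw [cycloExp_cast, cycloExp_cast, cycloExp_cast, chiU_mul, Units.val_mul]

theorem cycloExp_one : ((cycloExp p (1 : GQ) : ℕ) : ZMod p) = 1 := by
  rw [cycloExp_cast, chiU_one, Units.val_one]

theorem cycloExp_cast_ne_zero (σ : GQ) : ((cycloExp p σ : ℕ) : ZMod p) ≠ 0 := by
  rw [cycloExp_cast]
  exact Units.ne_zero _

/-- The defining property: `σ ζ = ζ ^ cycloExp σ` for `ζ ^ p = 1`. -/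
theorem cycloExp_spec (σ : GQ) {ζ : AlgebraicClosure ℚ} (hζ : ζ ^ p = 1) :
    σ ζ = ζ ^ cycloExp p σ := by
  haveI : NeZero p := ⟨hp.out.ne_zero⟩
  have hu : IsUnit ζ := IsUnit.of_pow_eq_one hζ hp.out.ne_zero
  obtain ⟨u, rfl⟩ := hu
  have hmem : u ∈ rootsOfUnity p (AlgebraicClosure ℚ) := by
    rw [mem_rootsOfUnity]
    exact Units.ext (by simpa using hζ)
  exact modularCyclotomicCharacter.spec (AlgebraicClosure ℚ) (card_rootsOfUnity_eq_self p)
    (σ : AlgebraicClosure ℚ ≃+* AlgebraicClosure ℚ) hmem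

/-- There is a primitive `p`-th root of unity in `ℚ̄`. -/
theorem exists_primitiveRoot : ∃ ζ : AlgebraicClosure ℚ, IsPrimitiveRoot ζ p := by
  haveI : NeZero p := ⟨hp.out.ne_zero⟩
  haveI : NeZero (p : AlgebraicClosure ℚ) := ⟨Nat.cast_ne_zero.mpr hp.out.ne_zero⟩
  exact HasEnoughRootsOfUnity.exists_primitiveRoot (AlgebraicClosure ℚ) p

variable {p}

/-- `σ` fixes a primitive root iff its cyclotomic exponent is `1` mod `p`. -/
theorem fixes_zeta_iff {ζ : AlgebraicClosure ℚ} (hζ : IsPrimitiveRoot ζ p) (σ : GQ) :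
    σ ζ = ζ ↔ ((cycloExp p σ : ℕ) : ZMod p) = 1 := by
  haveI : NeZero p := ⟨hp.out.ne_zero⟩
  rw [cycloExp_spec p σ hζ.pow_eq_one]
  have h1 : (1 : ZMod p) = ((1 : ℕ) : ZMod p) := by simp
  rw [h1, ZMod.natCast_eq_natCast_iff]
  have hord : orderOf ζ = p := hζ.eq_orderOf.symm
  have hfin : IsOfFinOrder ζ :=
    isOfFinOrder_iff_pow_eq_one.mpr ⟨p, hp.out.pos, hζ.pow_eq_one⟩
  have key := hfin.pow_eq_pow_iff_modEq (n := cycloExp p σ) (m := 1)
  rw [pow_one] at key
  rw [key]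
  exact ⟨fun h => hord ▸ h, fun h => hord.symm ▸ h⟩

/-- `σ` acts on all of `ℚ(ζ)` trivially iff its cyclotomic exponent is `1`. -/
theorem mem_fixingSubgroup_iff_cycloExp {ζ : AlgebraicClosure ℚ} (hζ : IsPrimitiveRoot ζ p)
    (σ : GQ) :
    σ ∈ (IntermediateField.adjoin ℚ {ζ}).fixingSubgroup ↔ ((cycloExp p σ : ℕ) : ZMod p) = 1 := by
  rw [← fixes_zeta_iff hζ, IntermediateField.mem_fixingSubgroup_iff]
  constructor
  · intro h
    exact h ζ (IntermediateField.subset_adjoin ℚ {ζ} rfl)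
  · intro h x hx
    have hle : IntermediateField.adjoin ℚ {ζ} ≤ IntermediateField.fixedField
        (Subgroup.zpowers σ) := by
      rw [IntermediateField.adjoin_simple_le_iff, IntermediateField.mem_fixedField_iff]
      intro τ hτ
      obtain ⟨k, rfl⟩ := Subgroup.mem_zpowers_iff.mp hτ
      have : ∀ n : ℕ, (σ ^ n) ζ = ζ := by
        intro n
        induction n with
        | zero => simp
        | succ n ih => rw [pow_succ, AlgEquiv.mul_apply, h, ih]
      rcases Int.eq_nat_or_neg k with ⟨n, rfl | rfl⟩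
      · simpa using this n
      · rw [zpow_neg, zpow_natCast]
        have h2 := this n
        exact (AlgEquiv.symm_apply_eq (σ ^ n)).mpr h2.symm
    have := hle hx
    rw [IntermediateField.mem_fixedField_iff] at this
    exact this σ (Subgroup.mem_zpowers σ)

/-- An element fixed by every `σ` with trivial cyclotomic exponent lies in `ℚ(ζ)`. -/
theorem mem_adjoin_of_fixed {ζ : AlgebraicClosure ℚ} (hζ : IsPrimitiveRoot ζ p)
    {y : AlgebraicClosure ℚ}
    (hy : ∀ σ : GQ, ((cycloExp p σ : ℕ) : ZMod p) = 1 → σ y = y) :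
    y ∈ IntermediateField.adjoin ℚ {ζ} := by
  haveI := isGalois_Qbar
  rw [← InfiniteGalois.fixedField_fixingSubgroup (IntermediateField.adjoin ℚ {ζ}),
    IntermediateField.mem_fixedField_iff]
  intro σ hσ
  exact hy σ ((mem_fixingSubgroup_iff_cycloExp hζ σ).mp hσ)

/-- For `p ≥ 3` the cyclotomic character is nontrivial. -/
theorem exists_cycloExp_ne_one (h3 : 3 ≤ p) :
    ∃ σ : GQ, ((cycloExp p σ : ℕ) : ZMod p) ≠ 1 := by
  haveI : NeZero p := ⟨hp.out.ne_zero⟩
  obtain ⟨ζ, hζ⟩ := exists_primitiveRoot p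
  haveI := isGalois_Qbar
  by_contra hcon
  push Not at hcon
  have hmem : ζ ∈ Set.range (algebraMap ℚ (AlgebraicClosure ℚ)) := by
    rw [InfiniteGalois.mem_range_algebraMap_iff_fixed]
    intro σ
    exact (fixes_zeta_iff hζ σ).mpr (hcon σ)
  obtain ⟨q, hq⟩ := hmem
  -- degree of the minimal polynomial of `ζ` is `φ(p) = p - 1 ≥ 2`
  have hdeg : (minpoly ℚ ζ).natDegree = p - 1 := by
    rw [← Polynomial.cyclotomic_eq_minpoly_rat hζ (NeZero.pos p), Polynomial.natDegree_cyclotomic,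
      Nat.totient_prime hp.out]
  have h1 : (minpoly ℚ ζ).natDegree = 1 := by
    rw [← hq, minpoly.eq_X_sub_C_of_algebraMap_inj q (algebraMap ℚ (AlgebraicClosure ℚ)).injective]
    exact Polynomial.natDegree_X_sub_C q
  omega

end Fermat.Agent.S14.H134
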