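import Fermat.Agent.S14.H134.Cyclo

/-!
# S14 / GALOIS block (helper134): Lagrange resolvents in `ℚ̄`
-/

set_option autoImplicit false
set_option linter.style.haveILetI false
set_option linter.unusedSectionVars false

namespace Fermat.Agent.S14.H134

open ExtCitation

variable (p : ℕ) [hp : Fact p.Prime]

/-- Lagrange resolvent `∑_{i<p} ω^i τ^i(x)`. -/
noncomputable def resolvent (τ : GQ) (x ω : AlgebraicClosure ℚ) : AlgebraicClosure ℚ :=
  ∑ i ∈ Finset.range p, ω ^ i * (τ ^ i) x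

variable {p}

theorem resolvent_eigen {τ : GQ} {x ω : AlgebraicClosure ℚ} (hω : τ ω = ω) (hω1 : ω ^ p = 1)
    (hx : (τ ^ p) x = x) : ω * τ (resolvent p τ x ω) = resolvent p τ x ω := by
  unfold resolvent
  rw [map_sum, Finset.mul_sum]
  have h1 : ∀ i ∈ Finset.range p, ω * τ (ω ^ i * (τ ^ i) x) = ω ^ (i + 1) * (τ ^ (i + 1)) x := by
    intro i _
    rw [map_mul, map_pow, hω, pow_succ' τ i, AlgEquiv.mul_apply, pow_succ' ω i, mul_assoc]
  rw [Finset.sum_congr rfl h1]
  have h2 := Finset.sum_range_succ' (fun i => ω ^ i * (τ ^ i) x) p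
  have h3 := Finset.sum_range_succ (fun i => ω ^ i * (τ ^ i) x) p
  simp only [pow_zero, one_mul, AlgEquiv.one_apply] at h2
  rw [h3, hω1, hx, one_mul] at h2
  exact (add_right_cancel h2).symm

theorem sum_resolvent {ζ : AlgebraicClosure ℚ} (hζ : IsPrimitiveRoot ζ p) (τ : GQ)
    (x : AlgebraicClosure ℚ) :
    ∑ j ∈ Finset.range p, resolvent p τ x (ζ ^ j) = (p : AlgebraicClosure ℚ) * x := by
  unfold resolvent
  rw [Finset.sum_comm]
  have h1 : ∀ i ∈ Finset.range p, ∑ j ∈ Finset.range p, (ζ ^ j) ^ i * (τ ^ i) x =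
      (∑ j ∈ Finset.range p, (ζ ^ i) ^ j) * (τ ^ i) x := by
    intro i _
    rw [Finset.sum_mul]
    refine Finset.sum_congr rfl fun j _ => ?_
    rw [← pow_mul, ← pow_mul, mul_comm j i]
  rw [Finset.sum_congr rfl h1]
  rw [Finset.sum_eq_single 0]
  · simp
  · intro i hi hi0
    have hip : i < p := Finset.mem_range.mp hi
    have hcop : i.Coprime p := by
      rw [Nat.coprime_comm]
      exact (Nat.Prime.coprime_iff_not_dvd hp.out).mpr
        (Nat.not_dvd_of_pos_of_lt (Nat.pos_of_ne_zero hi0) hip)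
    rw [(hζ.pow_of_coprime i hcop).geom_sum_eq_zero hp.out.one_lt, zero_mul]
  · intro h
    exact absurd (Finset.mem_range.mpr hp.out.pos) h

/-- If `τ` fixes `ζ`, `τ^p` fixes `x` but `τ` does not fix `x`, there is a primitive root `ω`
and `β ≠ 0` in the `ℤ[ζ]`-span of the `τ^i x` with `τ β = ω β`. -/
theorem exists_eigen {ζ : AlgebraicClosure ℚ} (hζ : IsPrimitiveRoot ζ p) {τ : GQ}
    {x : AlgebraicClosure ℚ} (hτζ : τ ζ = ζ) (hx : (τ ^ p) x = x) (hne : τ x ≠ x) :
    ∃ j : ℕ, 0 < j ∧ j < p ∧ resolvent p τ x (ζ ^ j) ≠ 0 ∧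
      ζ ^ j * τ (resolvent p τ x (ζ ^ j)) = resolvent p τ x (ζ ^ j) := by
  have heig : ∀ j : ℕ, ζ ^ j * τ (resolvent p τ x (ζ ^ j)) = resolvent p τ x (ζ ^ j) := by
    intro j
    apply resolvent_eigen
    · rw [map_pow, hτζ]
    · rw [← pow_mul, mul_comm, pow_mul, hζ.pow_eq_one, one_pow]
    · exact hx
  by_contra hcon
  push Not at hcon
  have hzero : ∀ j ∈ Finset.range p, j ≠ 0 → resolvent p τ x (ζ ^ j) = 0 := by
    intro j hj hj0
    by_contra h
    exact h ((hcon j (Nat.pos_of_ne_zero hj0) (Finset.mem_range.mp hj) h).elim (heig j))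
  have hsum := sum_resolvent hζ τ x
  rw [Finset.sum_eq_single 0 hzero
    (fun h => absurd (Finset.mem_range.mpr hp.out.pos) h)] at hsum
  have h0 := heig 0
  rw [hsum, pow_zero, one_mul, map_mul, map_natCast] at h0
  have hp0 : (p : AlgebraicClosure ℚ) ≠ 0 := Nat.cast_ne_zero.mpr hp.out.ne_zero
  exact hne (mul_left_cancel₀ hp0 h0)

end Fermat.Agent.S14.H134
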