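import Fermat.Agent.S14.H134.Split
import Fermat.Agent.S14.H134.Resolvent

/-!
# S14 / GALOIS block (helper134): the Kummer generator of a non-split admissible extension

Main result `exists_kummer_generator`: for a non-split admissible extension `V` there is
`β ∈ ℚ̄ˣ` with `β ^ p ∈ K = ℚ(ζ_p)`, `β ∉ K`, fixed by every `σ` acting trivially on `V`, and
of type `ω²`: `σ β = β ^ (χ(σ)²) · y` with `y ∈ K`, for all `σ ∈ G_ℚ`.
-/

set_option autoImplicit false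
set_option linter.style.haveILetI false
set_option linter.unusedSectionVars false
set_option linter.unusedVariables false

namespace Fermat.Agent.S14.H134

open ExtCitation

variable {p : ℕ} [hp : Fact p.Prime]

theorem pow_eq_pow_of_cast_eq {ω : AlgebraicClosure ℚ} (hω : ω ^ p = 1) {a b : ℕ}
    (hab : (a : ZMod p) = (b : ZMod p)) : ω ^ a = ω ^ b :=
  pow_eq_pow_of_modEq ((ZMod.natCast_eq_natCast_iff a b p).mp hab) hω

/-- Abstract form of the Kummer generator construction: data `(b, τ₀, x)`. -/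
theorem exists_kummer_generator_aux {ζ : AlgebraicClosure ℚ} (hζ : IsPrimitiveRoot ζ p)
    {b : GQ → ZMod p} (hbc : IsCocycle p b) {τ₀ : GQ}
    (hτχ : ((cycloExp p τ₀ : ℕ) : ZMod p) = 1) (hτb : b τ₀ ≠ 0)
    {x : AlgebraicClosure ℚ} (hxN : ∀ n ∈ kerSub b hbc, n x = x) (hτx : τ₀ x ≠ x) :
    ∃ β : AlgebraicClosure ℚ, β ≠ 0 ∧ β ^ p ∈ IntermediateField.adjoin ℚ {ζ} ∧
      β ∉ IntermediateField.adjoin ℚ {ζ} ∧
      (∀ σ ∈ kerSub b hbc, σ β = β) ∧
      (∀ σ : GQ, ∃ y ∈ IntermediateField.adjoin ℚ {ζ}, σ β = β ^ (cycloExp p σ ^ 2) * y) := by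
  haveI : NeZero p := ⟨hp.out.ne_zero⟩
  have hτζ : τ₀ ζ = ζ := (fixes_zeta_iff hζ τ₀).mpr hτχ
  -- `τ₀ ^ p ∈ N`
  have hτp : τ₀ ^ p ∈ kerSub b hbc := by
    refine ⟨cycloExp_pow_of_eq_one hτχ p, ?_⟩
    rw [hbc.map_pow hτχ, CharP.cast_eq_zero, zero_mul]
  obtain ⟨j, hj0, hjp, hβ0, hβe⟩ := exists_eigen hζ hτζ (hxN _ hτp) hτx
  set β : AlgebraicClosure ℚ := resolvent p τ₀ x (ζ ^ j) with hβdef
  set ω₀ : AlgebraicClosure ℚ := ζ ^ (p - j) with hω₀
  have hω₀p : ω₀ ^ p = 1 := by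
    rw [hω₀, ← pow_mul, mul_comm, pow_mul, hζ.pow_eq_one, one_pow]
  have hω₀ζ : ω₀ * ζ ^ j = 1 := by
    rw [hω₀, ← pow_add, Nat.sub_add_cancel hjp.le, hζ.pow_eq_one]
  have hω₀prim : IsPrimitiveRoot ω₀ p := by
    apply hζ.pow_of_coprime
    rw [Nat.coprime_comm]
    exact (Nat.Prime.coprime_iff_not_dvd hp.out).mpr
      (Nat.not_dvd_of_pos_of_lt (by omega) (by omega))
  have hω₀1 : ω₀ ≠ 1 := hω₀prim.ne_one hp.out.one_lt
  have hω₀0 : ω₀ ≠ 0 := fun h => by rw [h, zero_pow hp.out.ne_zero] at hω₀p; exact zero_ne_one hω₀p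
  -- every element with trivial cyclotomic exponent fixes `ω₀`
  have hfixω : ∀ h : GQ, ((cycloExp p h : ℕ) : ZMod p) = 1 → h ω₀ = ω₀ := by
    intro h hh
    rw [hω₀, map_pow, (fixes_zeta_iff hζ h).mpr hh]
  have hτβ : τ₀ β = ω₀ * β := by
    calc τ₀ β = (ω₀ * ζ ^ j) * τ₀ β := by rw [hω₀ζ, one_mul]
      _ = ω₀ * (ζ ^ j * τ₀ β) := by ring
      _ = ω₀ * β := by rw [hβe]
  have hτkβ : ∀ k : ℕ, (τ₀ ^ k) β = ω₀ ^ k * β := by
    intro k
    induction k with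
    | zero => simp
    | succ k ih =>
      rw [pow_succ', AlgEquiv.mul_apply, ih, map_mul, map_pow, hfixω τ₀ hτχ, hτβ, pow_succ]
      ring
  -- `N` fixes `β`
  have hNβ : ∀ n ∈ kerSub b hbc, n β = β := by
    intro n hn
    have hnζ : n ζ = ζ := (fixes_zeta_iff hζ n).mpr hn.1
    rw [hβdef]
    unfold resolvent
    rw [map_sum]
    refine Finset.sum_congr rfl fun i _ => ?_
    rw [map_mul, map_pow, map_pow, hnζ]
    congr 1
    have hconj := hxN _ (conj_mem_kerSub (τ₀ ^ i) hn)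
    rw [AlgEquiv.mul_apply, AlgEquiv.mul_apply] at hconj
    have := congrArg (τ₀ ^ i) hconj
    rw [← AlgEquiv.mul_apply (τ₀ ^ i) (τ₀ ^ i)⁻¹, mul_inv_cancel, AlgEquiv.one_apply] at this
    exact this
  -- the action of `H` on `β`
  have hHβ : ∀ h : GQ, ((cycloExp p h : ℕ) : ZMod p) = 1 →
      h β = ω₀ ^ (b h * (b τ₀)⁻¹).val * β := by
    intro h hh
    set k : ℕ := (b h * (b τ₀)⁻¹).val with hk
    have hkcast : (k : ZMod p) = b h * (b τ₀)⁻¹ := by rw [hk, ZMod.natCast_val, ZMod.cast_id]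
    have hτk : ((cycloExp p (τ₀ ^ k) : ℕ) : ZMod p) = 1 := cycloExp_pow_of_eq_one hτχ k
    have hn : (τ₀ ^ k)⁻¹ * h ∈ kerSub b hbc := by
      have hinvχ : ((cycloExp p (τ₀ ^ k)⁻¹ : ℕ) : ZMod p) = 1 := by
        have := cycloExp_mul p (τ₀ ^ k)⁻¹ (τ₀ ^ k)
        rw [inv_mul_cancel, cycloExp_one, hτk, mul_one] at this
        exact this.symm
      refine ⟨by rw [cycloExp_mul, hinvχ, hh, one_mul], ?_⟩
      rw [hbc.map_mul_of_right hh]
      have h1 := hbc.map_inv (τ₀ ^ k)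
      rw [hτk, one_mul, hbc.map_pow hτχ, hkcast, mul_assoc, inv_mul_cancel₀ hτb, mul_one] at h1
      exact h1
    have e1 : h = τ₀ ^ k * ((τ₀ ^ k)⁻¹ * h) := by group
    calc h β = (τ₀ ^ k * ((τ₀ ^ k)⁻¹ * h)) β := by rw [← e1]
      _ = (τ₀ ^ k) (((τ₀ ^ k)⁻¹ * h) β) := AlgEquiv.mul_apply _ _ _
      _ = (τ₀ ^ k) β := by rw [hNβ _ hn]
      _ = ω₀ ^ k * β := hτkβ k
  refine ⟨β, hβ0, ?_, ?_, hNβ, ?_⟩
  · -- `β ^ p ∈ K`
    apply mem_adjoin_of_fixed hζ
    intro σ hσ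
    rw [map_pow, hHβ σ hσ, mul_pow, ← pow_mul, mul_comm _ p, pow_mul, hω₀p, one_pow, one_mul]
  · -- `β ∉ K`
    intro hmem
    have hτfix : τ₀ ∈ (IntermediateField.adjoin ℚ {ζ}).fixingSubgroup :=
      (mem_fixingSubgroup_iff_cycloExp hζ τ₀).mpr hτχ
    have h1 : τ₀ β = β := (IntermediateField.mem_fixingSubgroup_iff _ _).mp hτfix β hmem
    rw [hτβ] at h1
    have h2 : (ω₀ - 1) * β = 0 := by rw [sub_mul, h1, one_mul, sub_self]
    rcases mul_eq_zero.mp h2 with h | h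
    · exact hω₀1 (sub_eq_zero.mp h)
    · exact hβ0 h
  · -- type `ω²`
    intro σ
    set e : ℕ := cycloExp p σ ^ 2 with he
    have hβe0 : β ^ e ≠ 0 := pow_ne_zero _ hβ0
    refine ⟨σ β * (β ^ e)⁻¹, ?_, ?_⟩
    · apply mem_adjoin_of_fixed hζ
      intro h hh
      set h' : GQ := σ⁻¹ * h * σ with hh'
      have hχ' : ((cycloExp p h' : ℕ) : ZMod p) = 1 := by rw [hh', cycloExp_conj, hh]
      have hb' : b h' = (cycloExp p σ : ZMod p) * b h := hbc.map_conj σ hh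
      have e1 : h * σ = σ * h' := by rw [hh']; group
      have h1 : h (σ β) = (ω₀ ^ cycloExp p σ) ^ (b h' * (b τ₀)⁻¹).val * σ β := by
        calc h (σ β) = (h * σ) β := (AlgEquiv.mul_apply _ _ _).symm
          _ = (σ * h') β := by rw [e1]
          _ = σ (h' β) := AlgEquiv.mul_apply _ _ _
          _ = σ (ω₀ ^ (b h' * (b τ₀)⁻¹).val * β) := by rw [hHβ h' hχ']
          _ = (ω₀ ^ cycloExp p σ) ^ (b h' * (b τ₀)⁻¹).val * σ β := by
            rw [map_mul, map_pow, cycloExp_spec p σ hω₀p]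
      have h2 : h (β ^ e) = ω₀ ^ ((b h * (b τ₀)⁻¹).val * e) * β ^ e := by
        rw [map_pow, hHβ h hh, mul_pow, ← pow_mul]
      have h3 : (ω₀ ^ cycloExp p σ) ^ (b h' * (b τ₀)⁻¹).val =
          ω₀ ^ ((b h * (b τ₀)⁻¹).val * e) := by
        rw [← pow_mul]
        apply pow_eq_pow_of_cast_eq hω₀p
        push_cast
        rw [ZMod.natCast_val, ZMod.cast_id, ZMod.natCast_val, ZMod.cast_id, hb', he]
        push_cast
        ring
      have hω0 : ω₀ ^ ((b h * (b τ₀)⁻¹).val * e) ≠ 0 := pow_ne_zero _ hω₀0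
      rw [map_mul, map_inv₀, h1, h2, h3]
      field_simp
    · field_simp

variable {V : Type} [AddCommGroup V] [Module (ZMod p) V]
  [DistribMulAction GQ V] [SMulCommClass GQ (ZMod p) V]
  {C : Submodule (ZMod p) V}

/-- **GALOIS block.**  A non-split admissible extension yields a Kummer generator `β` of type
`ω²` over `K = ℚ(ζ_p)`, fixed by the kernel of the representation. -/
theorem exists_kummer_generator (hadm : IsAdmissibleExtensionCts p V C) (h3 : 3 ≤ p)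
    (hns : ¬ SplitsGlobally C) {ζ : AlgebraicClosure ℚ} (hζ : IsPrimitiveRoot ζ p) :
    ∃ β : AlgebraicClosure ℚ, β ≠ 0 ∧ β ^ p ∈ IntermediateField.adjoin ℚ {ζ} ∧
      β ∉ IntermediateField.adjoin ℚ {ζ} ∧
      (∀ σ : GQ, (∀ v : V, σ • v = v) → σ β = β) ∧
      (∀ σ : GQ, ∃ y ∈ IntermediateField.adjoin ℚ {ζ}, σ β = β ^ (cycloExp p σ ^ 2) * y) := by
  haveI := isGalois_Qbar
  have hadm' := hadm.toIsAdmissibleExtension
  obtain ⟨c₀, v₀, hc₀, hne, hv₀⟩ := exists_basis_vectors hadm'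
  obtain ⟨b, hbc, hb⟩ := exists_cocycle (v₀ := v₀) hadm' hc₀ hne
  obtain ⟨τ₀, hτχ, hτb⟩ := exists_nontrivial_of_not_split hadm' h3 hns hc₀ hv₀ hb
  -- the kernel of the action is contained in `N`
  have hsub : {σ : GQ | ∀ v : V, σ • v = v} ⊆ (kerSub b hbc : Set GQ) := fun σ hσ =>
    cyclo_eq_one_and_b_eq_zero_of_fix hc₀ hne hv₀ hb (hσ v₀)
  have hopen : IsOpen (kerSub b hbc : Set GQ) := by
    apply Subgroup.isOpen_of_mem_nhds (g := 1)
    refine Filter.mem_of_superset (hadm.open_kernel.mem_nhds ?_) hsub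
    intro v
    exact one_smul _ v
  have hclosed : IsClosed (kerSub b hbc : Set GQ) := Subgroup.isClosed_of_isOpen _ hopen
  have hτN : τ₀ ∉ kerSub b hbc := fun h => hτb h.2
  have hfix := InfiniteGalois.fixingSubgroup_fixedField
    (⟨kerSub b hbc, hclosed⟩ : ClosedSubgroup GQ)
  have hτN' : τ₀ ∉ (IntermediateField.fixedField (kerSub b hbc)).fixingSubgroup := by
    intro h
    apply hτN
    have := hfix ▸ h
    exact this
  rw [IntermediateField.mem_fixingSubgroup_iff] at hτN'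
  push Not at hτN'
  obtain ⟨x, hxmem, hτx⟩ := hτN'
  have hxN : ∀ n ∈ kerSub b hbc, n x = x := by
    intro n hn
    exact (IntermediateField.mem_fixedField_iff _ x).mp hxmem n hn
  obtain ⟨β, h1, h2, h3', h4, h5⟩ := exists_kummer_generator_aux hζ hbc hτχ hτb hxN hτx
  exact ⟨β, h1, h2, h3', fun σ hσ => h4 σ (hsub hσ), h5⟩

/-- Consequence: inertia at `ℓ ≠ p` fixes `β`; the part of a decomposition group at `p`
fixing `ζ` fixes `β`. -/
theorem exists_kummer_generator_local (hadm : IsAdmissibleExtensionCts p V C) (h3 : 3 ≤ p)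
    (hns : ¬ SplitsGlobally C) {ζ : AlgebraicClosure ℚ} (hζ : IsPrimitiveRoot ζ p) :
    ∃ β : AlgebraicClosure ℚ, β ≠ 0 ∧ β ^ p ∈ IntermediateField.adjoin ℚ {ζ} ∧
      β ∉ IntermediateField.adjoin ℚ {ζ} ∧
      (∀ σ : GQ, ∃ y ∈ IntermediateField.adjoin ℚ {ζ}, σ β = β ^ (cycloExp p σ ^ 2) * y) ∧
      (∀ ℓ : ℕ, ℓ.Prime → ℓ ≠ p → ∀ A : ValuationSubring (AlgebraicClosure ℚ),
        A.LiesOverPrime ℓ → ∀ σ ∈ A.inertiaSubgroupIn ℚ, σ β = β) ∧
      (∀ A : ValuationSubring (AlgebraicClosure ℚ), A.LiesOverPrime p →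
        ∀ σ ∈ A.decompositionSubgroup ℚ, σ ζ = ζ → σ β = β) := by
  obtain ⟨β, h1, h2, h3', h4, h5⟩ := exists_kummer_generator hadm h3 hns hζ
  refine ⟨β, h1, h2, h3', h5, ?_, ?_⟩
  · intro ℓ hℓ hℓp A hA σ hσ
    exact h4 σ (hadm.unramified_outside ℓ hℓ hℓp A hA σ hσ)
  · intro A hA σ hσ hσζ
    apply h4 σ
    obtain ⟨C', hstab, hcompl⟩ := hadm.locally_split A hA
    have hχ : ((cycloExp p σ : ℕ) : ZMod p) = 1 := (fixes_zeta_iff hζ σ).mp hσζ
    intro v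
    -- decompose `v = c + c'`
    have hv : v ∈ C ⊔ C' := by rw [hcompl.sup_eq_top]; trivial
    obtain ⟨c, hc, c', hc', rfl⟩ := Submodule.mem_sup.mp hv
    have e1 : σ • c = c := hadm.fixed_sub σ c hc
    have e2 : σ • c' = c' := by
      have hmem : σ • c' - c' ∈ C ⊓ C' := by
        refine ⟨?_, C'.sub_mem (hstab σ hσ c' hc') hc'⟩
        have := hadm.cyclo_quot σ c'
        rwa [hχ, one_smul] at this
      rw [hcompl.inf_eq_bot, Submodule.mem_bot] at hmem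
      exact sub_eq_zero.mp hmem
    rw [smul_add, e1, e2]

end Fermat.Agent.S14.H134
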