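import Fermat.Agent.S14.H134.Cocycle

/-!
# S14 / GALOIS block (helper134): the split case

If the cocycle `b` vanishes on `G_K = ker χ`, the extension splits globally.
-/

set_option autoImplicit false
set_option linter.style.haveILetI false
set_option linter.unusedSectionVars false

namespace Fermat.Agent.S14.H134

open ExtCitation

variable {p : ℕ} [hp : Fact p.Prime]
variable {V : Type} [AddCommGroup V] [Module (ZMod p) V]
  [DistribMulAction GQ V] [SMulCommClass GQ (ZMod p) V]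
  {C : Submodule (ZMod p) V}

/-- If every `h` with `χ(h) = 1` fixes `v₀ ∉ C`, then `C` has a Galois-stable complement. -/
theorem splitsGlobally_of_fix (hadm : IsAdmissibleExtension p V C) (h3 : 3 ≤ p)
    {v₀ : V} (hv₀ : v₀ ∉ C)
    (htriv : ∀ h : GQ, ((cycloExp p h : ℕ) : ZMod p) = 1 → h • v₀ = v₀) :
    SplitsGlobally C := by
  obtain ⟨c₀, -, hc₀, hne, -⟩ := exists_basis_vectors hadm
  have hfix : ∀ σ : GQ, σ • c₀ = c₀ := fun σ => hadm.fixed_sub σ c₀ hc₀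
  obtain ⟨b, -, hb⟩ := exists_cocycle (v₀ := v₀) hadm hc₀ hne
  obtain ⟨σ₀, hσ₀⟩ := exists_cycloExp_ne_one (p := p) h3
  set χ₀ : ZMod p := (cycloExp p σ₀ : ZMod p) with hχ₀
  have hu : χ₀ - 1 ≠ 0 := fun h => hσ₀ (sub_eq_zero.mp h)
  set t : ZMod p := b σ₀ * (χ₀ - 1)⁻¹ with ht
  set v₁ : V := v₀ + t • c₀ with hv₁
  have hv₁C : v₁ ∉ C := by
    intro h
    apply hv₀
    have : v₀ = v₁ - t • c₀ := by rw [hv₁]; abel
    rw [this]
    exact C.sub_mem h (C.smul_mem _ hc₀)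
  -- `σ₀ v₁ = χ₀ v₁`
  have hσv₁ : σ₀ • v₁ = χ₀ • v₁ := by
    rw [hv₁, smul_add, smul_comm σ₀ t c₀, hfix, hb σ₀, smul_add, smul_smul]
    have : b σ₀ = χ₀ * t - t := by
      rw [ht]
      field_simp
    rw [this, sub_smul]
    abel
  -- elements of `H` fix `v₁`
  have hH : ∀ h : GQ, ((cycloExp p h : ℕ) : ZMod p) = 1 → h • v₁ = v₁ := by
    intro h hh
    rw [hv₁, smul_add, smul_comm h t c₀, hfix, htriv h hh]
  obtain ⟨b', hb'c, hb'⟩ := exists_cocycle (v₀ := v₁) hadm hc₀ hne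
  have hb'σ₀ : b' σ₀ = 0 := by
    have := hb' σ₀
    rw [hσv₁] at this
    have h0 : b' σ₀ • c₀ = 0 := by
      have h' : χ₀ • v₁ + 0 = χ₀ • v₁ + b' σ₀ • c₀ := by rw [add_zero]; exact this
      exact (add_left_cancel h').symm
    rcases smul_eq_zero.mp h0 with h | h
    · exact h
    · exact absurd h hne
  have hb'H : ∀ h : GQ, ((cycloExp p h : ℕ) : ZMod p) = 1 → b' h = 0 := fun h hh =>
    (cyclo_eq_one_and_b_eq_zero_of_fix hc₀ hne hv₁C hb' (hH h hh)).2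
  have hb'all : ∀ τ : GQ, b' τ = 0 := by
    intro τ
    -- commutator `h = (τ σ₀)⁻¹ (σ₀ τ)`
    set h : GQ := (τ * σ₀)⁻¹ * (σ₀ * τ) with hh
    have hχh : ((cycloExp p h : ℕ) : ZMod p) = 1 := by
      rw [cycloExp_cast, hh, chiU_mul, chiU_inv, chiU_mul, chiU_mul, mul_comm (chiU p τ)]
      simp
    have e1 : σ₀ * τ = τ * σ₀ * h := by rw [hh]; group
    have h1 : b' (σ₀ * τ) = b' τ := by
      rw [hb'c σ₀ τ, hb'σ₀, mul_zero, zero_add]
    have h2 : b' (τ * σ₀ * h) = χ₀ * b' τ := by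
      rw [hb'c.map_mul_of_right hχh, hb'H h hχh, add_zero, hb'c τ σ₀, hb'σ₀, add_zero]
    rw [e1, h2] at h1
    have h3 : (χ₀ - 1) * b' τ = 0 := by rw [sub_mul, h1, one_mul, sub_self]
    rcases mul_eq_zero.mp h3 with h | h
    · exact absurd h hu
    · exact h
  refine ⟨Submodule.span (ZMod p) {v₁}, ?_, isCompl_span hadm hv₁C⟩
  intro σ x hx
  obtain ⟨a, rfl⟩ := Submodule.mem_span_singleton.mp hx
  rw [smul_comm σ a v₁, hb' σ, hb'all σ, zero_smul, add_zero, smul_smul]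
  exact Submodule.smul_mem _ _ (Submodule.mem_span_singleton_self v₁)

/-- In the non-split case there is `τ₀` with `χ(τ₀) = 1`, `b(τ₀) ≠ 0`. -/
theorem exists_nontrivial_of_not_split (hadm : IsAdmissibleExtension p V C) (h3 : 3 ≤ p)
    (hns : ¬ SplitsGlobally C) {c₀ v₀ : V} (hc₀ : c₀ ∈ C) (hv₀ : v₀ ∉ C) {b : GQ → ZMod p}
    (hb : ∀ σ : GQ, σ • v₀ = (cycloExp p σ : ZMod p) • v₀ + b σ • c₀) :
    ∃ τ₀ : GQ, ((cycloExp p τ₀ : ℕ) : ZMod p) = 1 ∧ b τ₀ ≠ 0 := by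
  by_contra hcon
  push Not at hcon
  apply hns
  apply splitsGlobally_of_fix hadm h3 hv₀
  intro h hh
  rw [hb h, hh, one_smul, hcon h hh, zero_smul, add_zero]

end Fermat.Agent.S14.H134
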